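import Fermat.Agent.RED.Ev
import Fermat.Agent.RED.EvBasic
import Fermat.Agent.S24.PlaceBasic

/-!
# FF19 / NG : the geometric block N (Lemma N1 + N2 on the curve; architect helper37)

SETTING (no residue curve `κ` here).  `F / K` a function field, `A` a valuation subring of `K`, `W` the Gauss
valuation ring of `F` with respect to the chart function `t`, `BB = {y | RED.IntOver A t y}`.
`Dsc` a set of places of `F / K` (= a residue disc `{P | sp P = y}`, `y` a point of an UNRAMIFIED fibre of `t̄`).

OUTPUT `Stmt_Newton` : on finitely many points `P` of the disc the value `b(P)` of `b ∈ BB` is a polynomial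
over `A` in `t(P)`.  (This gives the fields `polyE1`, `polyE2`, `polyM` of `Law.LawFacts`.)

PROOF = NEWTON INTERPOLATION, no Nakayama, no rank one hypothesis.
`RY = {u / v : u, v ∈ BB, v a unit at all points of the disc}`.
(N1) `f ∈ RY`, `P₁ ∈ Dsc`, `t(P₁) = a₁`  ⟹  `(f - f(P₁)) / (t - a₁) ∈ RY`.
Iterating over `S = {a₁, …, a_m}` : `f = e₀ + e₁ (t - a₁) + ⋯ + (t - a₁) ⋯ (t - a_m) f_m`, `e_l ∈ A`, and the last
term vanishes at all the points considered.
-/

set_option autoImplicit false

noncomputable section

namespace Fermat.Agent.FF19.NG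

open AlgebraicCurve Polynomial
open Fermat.Agent.RED (Ev IntOver GaussChart)

variable {K F : Type*} [Field K] [Field F] [Algebra K F]

/-- the global facts on the chart `t`. -/
structure ChartAx (A : ValuationSubring K) (W : ValuationSubring F) (t : F) : Prop where
  gc : GaussChart A W t
  /-- the residue field of a place is `K` -/
  resK : ∀ (P : Place K F) (f : F), f ∈ P.toValuationSubring → ∃ c : K, Ev P f c
  /-- the values of the elements of `BB` at the points with `t(P) ∈ A` lie in `A` -/
  evint : ∀ (P : Place K F) (a : K), Ev P t a → a ∈ A → ∀ y, IntOver A t y → ∃ c ∈ A, Ev P y c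
  /-- no pole where `t` is regular ⟹ integral over `K[t]` -/
  int : ∀ x : F, (∀ P : Place K F, t ∈ P.toValuationSubring → x ∈ P.toValuationSubring) →
    IsIntegral (Algebra.adjoin K {t}) x
  /-- the fibres of `t` are finite -/
  finFib : ∀ a : K, {P : Place K F | Ev P t a}.Finite

/-- `Dsc` is a residue disc of the model `Spec BB`, contained in unramified fibres of `t`. -/
structure DiscAx (A : ValuationSubring K) (t : F) (Dsc : Set (Place K F)) : Prop where
  fin : ∀ P ∈ Dsc, ∃ a ∈ A, Ev P t a
  /-- the elements of `BB` have congruent values on the disc -/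
  cong : ∀ P ∈ Dsc, ∀ P' ∈ Dsc, ∀ y, IntOver A t y → ∀ c c', Ev P y c → Ev P' y c' →
    c - c' ∈ A.nonunits
  /-- `BB` separates the disc from the other points of the chart -/
  sep : ∀ P ∈ Dsc, ∀ Q ∉ Dsc, (∃ a ∈ A, Ev Q t a) →
    ∃ y, IntOver A t y ∧ ∃ c c', Ev P y c ∧ Ev Q y c' ∧ c - c' ∉ A.nonunits
  /-- `t` is injective on the disc -/
  uniq : ∀ P ∈ Dsc, ∀ P' ∈ Dsc, ∀ a, Ev P t a → Ev P' t a → P = P'
  /-- the fibres of `t` through the points of the disc are unramified -/
  unr : ∀ P ∈ Dsc, ∀ a, Ev P t a → ∀ Q : Place K F, Ev Q t a → Q.ord (t - algebraMap K F a) = 1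

/-- `v` is a unit at all the points of the disc. -/
def UnitOn (A : ValuationSubring K) (Dsc : Set (Place K F)) (v : F) : Prop :=
  ∀ P ∈ Dsc, ∃ c, Ev P v c ∧ A.valuation c = 1

/-- the semi-local ring of the disc. -/
def RY (A : ValuationSubring K) (t : F) (Dsc : Set (Place K F)) (f : F) : Prop :=
  ∃ u v : F, IntOver A t u ∧ IntOver A t v ∧ UnitOn A Dsc v ∧ f = u / v

end Fermat.Agent.FF19.NG

end
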