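import Fermat.Agent.FF19.NG.Interface

/-!
# FF19 / NG-3 : division by `t - a₁` in `BB`  (`stmt_Div : Stmt_Div`)
-/

set_option autoImplicit false

noncomputable section

namespace Fermat.Agent.FF19.NG

open AlgebraicCurve Polynomial
open Fermat.Agent.RED (Ev IntOver GaussChart polyHom polyRing)

section

variable {K F : Type*} [Field K] [Field F] [Algebra K F]

/-- `A[t] ≤ O` as soon as `O` contains `t` and the constants of `A`. -/
theorem Div_polyRing_le {A : ValuationSubring K} {t : F} (O : ValuationSubring F)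
    (hc : ∀ c ∈ A, algebraMap K F c ∈ O) (ht : t ∈ O) : polyRing A t ≤ O.toSubring := by
  rintro z ⟨p, rfl⟩
  show p.eval₂ ((algebraMap K F).comp A.subtype) t ∈ O.toSubring
  rw [Polynomial.eval₂_eq_sum_range]
  refine Subring.sum_mem _ fun i _ => ?_
  exact Subring.mul_mem _ (hc _ (p.coeff i).2) (Subring.pow_mem _ ht _)

theorem Div_mem_of_intOver {A : ValuationSubring K} {t : F} (O : ValuationSubring F)
    (hc : ∀ c ∈ A, algebraMap K F c ∈ O) (ht : t ∈ O) {y : F} (hy : IntOver A t y) : y ∈ O :=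
  RED.EV_mem_of_isIntegral O (Div_polyRing_le O hc ht) hy

/-- a product `u * h / s` with `ord s = 1`, `u, h` regular, one of them vanishing, is regular. -/
theorem Div_mem_of_vanish (P : Place K F) {u h s : F} (hu : u ∈ P.toValuationSubring)
    (hh : Ev P h 0) (hs : P.ord s = 1) : u * h / s ∈ P.toValuationSubring := by
  by_cases hu0 : u = 0
  · rw [hu0, zero_mul, zero_div]; exact zero_mem _
  by_cases hh0 : h = 0
  · rw [hh0, mul_zero, zero_div]; exact zero_mem _
  have hs0 : s ≠ 0 := by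
    rintro rfl
    simp at hs
  have h1 : 0 < P.ord h := (RED.ev_zero_iff_ord hh0).1 hh
  have h2 : 0 ≤ P.ord u := S24.ord_nonneg_of_mem P hu
  refine S24.mem_of_ord_nonneg P (div_ne_zero (mul_ne_zero hu0 hh0) hs0) ?_
  rw [div_eq_mul_inv, P.ord_mul (mul_ne_zero hu0 hh0) (inv_ne_zero hs0), P.ord_mul hu0 hh0,
    P.ord_inv, hs]
  omega

end

theorem stmt_Div : Stmt_Div := by
  intro K F _ _ _ A W t Dsc hC hD P₁ hP₁ a₁ ha₁ u h hu hh hu0 hh0
  obtain ⟨a', ha'A, ha'⟩ := hD.fin P₁ hP₁
  have ha₁A : a₁ ∈ A := by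
    rw [RED.ev_unique ha₁ ha']; exact ha'A
  have hWc : ∀ c ∈ A, algebraMap K F c ∈ W := fun c hc => (hC.gc.const_mem c).2 hc
  refine hC.gc.int_of_mem _ ?_ ?_
  · -- membership in `W`
    have huW : u ∈ W := Div_mem_of_intOver W hWc hC.gc.x_mem hu
    have hhW : h ∈ W := Div_mem_of_intOver W hWc hC.gc.x_mem hh
    have hinv : (polyHom A t (X - C (⟨a₁, ha₁A⟩ : A)))⁻¹ ∈ W := by
      refine hC.gc.gauss _ ⟨1, ?_⟩
      rw [coeff_sub, coeff_X_one, coeff_C_succ, sub_zero]
      exact isUnit_one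
    rw [map_sub, RED.polyHom_X, RED.polyHom_C] at hinv
    rw [div_eq_mul_inv]
    exact mul_mem (mul_mem huW hhW) hinv
  · -- integrality over `K[t]`
    refine hC.int _ fun P ht => ?_
    obtain ⟨a, ha⟩ := hC.resK P t ht
    have hPc : ∀ c ∈ A, algebraMap K F c ∈ P.toValuationSubring := fun c _ => P.algebraMap_mem' c
    have huP : u ∈ P.toValuationSubring := Div_mem_of_intOver _ hPc ht hu
    have hhP : h ∈ P.toValuationSubring := Div_mem_of_intOver _ hPc ht hh
    by_cases haa : a = a₁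
    · subst haa
      have hord : P.ord (t - algebraMap K F a) = 1 := hD.unr P₁ hP₁ a ha₁ P ha
      by_cases hPP : P = P₁
      · subst hPP
        rw [mul_comm u h]
        exact Div_mem_of_vanish P hhP hu0 hord
      · exact Div_mem_of_vanish P huP (hh0 P ha hPP) hord
    · have hev : Ev P (t - algebraMap K F a₁) (a - a₁) := RED.ev_sub ha (RED.ev_const P a₁)
      rw [div_eq_mul_inv]
      exact mul_mem (mul_mem huP hhP) (RED.EV_inv_mem hev (sub_ne_zero.2 haa))

end Fermat.Agent.FF19.NG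

end
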