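import Fermat.Agent.FF19.NG.Defs

/-!
# FF19 / NG : statements (architect helper37).  See `Defs.lean` for the setting and the plan.
Each `Stmt_X` is proved in its own file `NG/X.lean` as `theorem stmt_X … : Stmt_X`.
-/

set_option autoImplicit false

noncomputable section

namespace Fermat.Agent.FF19.NG

open AlgebraicCurve Polynomial
open Fermat.Agent.RED (Ev IntOver GaussChart)

/-- **NG-1**.  The elements of `RY` are regular on the disc, with values in `A`; `UnitOn` is multiplicative.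
[`f = u / v`: `RED.ev_div`, `ChartAx.evint`, `DiscAx.fin`; `c ∈ A`, `A.valuation c' = 1` ⟹ `c / c' ∈ A`
(`ValuationSubring.valuation_le_one_iff`).] -/
def Stmt_RYEv : Prop :=
  ∀ (K F : Type) [Field K] [Field F] [Algebra K F] (A : ValuationSubring K) (W : ValuationSubring F)
    (t : F) (Dsc : Set (Place K F)), ChartAx A W t → DiscAx A t Dsc →
    (∀ f, RY A t Dsc f → ∀ P ∈ Dsc, ∃ e ∈ A, Ev P f e) ∧
    (∀ b, IntOver A t b → RY A t Dsc b) ∧
    (∀ v v', UnitOn A Dsc v → UnitOn A Dsc v' → UnitOn A Dsc (v * v')) ∧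
    UnitOn A Dsc 1

/-- **NG-2**.  A function `h ∈ BB`, a unit on the disc, vanishing at all the points `Q ≠ P₁` of the fibre of `t`
through `P₁ ∈ Dsc`.
[The fibre `{Q | Ev Q t a₁}` is finite (`finFib`).  A point `Q ≠ P₁` of it is not in `Dsc` (`uniq`).  `sep` gives
`y_Q ∈ BB` with values `c` at `P₁`, `c'` at `Q`, `c - c' ∉ 𝔪`; `c, c' ∈ A` by `evint` + `RED.ev_unique`;
`h_Q := y_Q - c'` is in `BB`, vanishes at `Q`, and at `P ∈ Dsc` its value is `≡ c - c'` (`cong`), of valuation `1`.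
`h := ∏ h_Q` over `(finFib a₁).toFinset.erase P₁` (`IntOver.prod`, `RED.ev_prod`; a product with one factor
vanishing at `Q`, the other factors regular at `Q` by `evint`, vanishes at `Q`).] -/
def Stmt_Kill : Prop :=
  ∀ (K F : Type) [Field K] [Field F] [Algebra K F] (A : ValuationSubring K) (W : ValuationSubring F)
    (t : F) (Dsc : Set (Place K F)), ChartAx A W t → DiscAx A t Dsc →
    ∀ P₁ ∈ Dsc, ∀ a₁, Ev P₁ t a₁ →
      ∃ h, IntOver A t h ∧ UnitOn A Dsc h ∧ ∀ Q : Place K F, Ev Q t a₁ → Q ≠ P₁ → Ev Q h 0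

/-- **NG-3**.  Division by `t - a₁` in `BB`.
[`g := u * h / (t - a₁)`.  `GaussChart.int_of_mem`: (i) `g ∈ W`: `u, h ∈ W` (`RED.EV_mem_of_isIntegral`,
`polyRing A t ≤ W` from `x_mem`, `const_mem`), `(t - a₁)⁻¹ ∈ W` by `GaussChart.gauss` for `p = X - C a₁`
(`a₁ ∈ A` by `DiscAx.fin` + `ev_unique`).  (ii) `g` integral over `K[t]` by `ChartAx.int`: let `t ∈ O_P`, `Ev P t a`
(`resK`); `u, h ∈ O_P` (integral over `polyRing A t ≤ O_P`).  If `a ≠ a₁`: `t - a₁` is a unit of `O_P` (`RED.EV_inv_mem`).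
If `a = a₁`: `P.ord (t - a₁) = 1` (`unr`) and `u` (if `P = P₁`) or `h` (if `P ≠ P₁`) vanishes at `P`, so it is `0` or has
`ord ≥ 1` (`RED.ev_zero_iff_ord`); conclude with `S24.mem_of_ord_nonneg`, `Place.ord_mul`, `Place.ord_inv`.] -/
def Stmt_Div : Prop :=
  ∀ (K F : Type) [Field K] [Field F] [Algebra K F] (A : ValuationSubring K) (W : ValuationSubring F)
    (t : F) (Dsc : Set (Place K F)), ChartAx A W t → DiscAx A t Dsc →
    ∀ P₁ ∈ Dsc, ∀ a₁, Ev P₁ t a₁ → ∀ u h, IntOver A t u → IntOver A t h → Ev P₁ u 0 →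
      (∀ Q : Place K F, Ev Q t a₁ → Q ≠ P₁ → Ev Q h 0) →
      IntOver A t (u * h / (t - algebraMap K F a₁))

/-- **NG-4** = (N1).
[`f = u / v`, `u' := u - e v ∈ BB` (`e ∈ A` by NG-1 + `ev_unique`) vanishes at `P₁`; `h` from NG-2;
`(f - e) / (t - a₁) = (u' h / (t - a₁)) / (v h)`; NG-3 and NG-1.  `v ≠ 0`, `h ≠ 0` since they are units at `P₁`;
`t - a₁ ≠ 0` since its `ord` at `P₁` is `1`.] -/
def Stmt_N1 : Prop :=
  ∀ (K F : Type) [Field K] [Field F] [Algebra K F] (A : ValuationSubring K) (W : ValuationSubring F)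
    (t : F) (Dsc : Set (Place K F)), ChartAx A W t → DiscAx A t Dsc →
    ∀ f, RY A t Dsc f → ∀ P₁ ∈ Dsc, ∀ a₁ e, Ev P₁ t a₁ → Ev P₁ f e →
      RY A t Dsc ((f - algebraMap K F e) / (t - algebraMap K F a₁))

/-- **NG-5** = (N2), Newton interpolation.
[Induction on `S` (`Finset.induction_on`), `f` generalised.  `insert a₁ S'`: if no point of the disc has `t = a₁` use the
polynomial of `S'`.  Otherwise `P₁`, `e = f(P₁) ∈ A`, `f₁ = (f - e) / (t - a₁) ∈ RY` (NG-4), `W₁` for `(S', f₁)`,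
`W₀ := C e + (X - C a₁) * W₁`.  At `P` with `t(P) = a₁`: `P = P₁` (`uniq`).  At `P` with `t(P) = a ≠ a₁`:
`f = e + (t - a₁) f₁`.] -/
def Stmt_Newton : Prop :=
  ∀ (K F : Type) [Field K] [Field F] [Algebra K F] (A : ValuationSubring K) (W : ValuationSubring F)
    (t : F) (Dsc : Set (Place K F)), ChartAx A W t → DiscAx A t Dsc →
    ∀ (S : Finset K) (f : F), RY A t Dsc f →
      ∃ W₀ : (A)[X], ∀ a ∈ S, ∀ P ∈ Dsc, Ev P t a → Ev P f (aeval a W₀)

/-- **NG-6** (OUTPUT): the shape used for `Law.PolyIn`: a polynomial in `t(P) - c₀`. -/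
def Stmt_NewtonShift : Prop :=
  ∀ (K F : Type) [Field K] [Field F] [Algebra K F] (A : ValuationSubring K) (W : ValuationSubring F)
    (t : F) (Dsc : Set (Place K F)), ChartAx A W t → DiscAx A t Dsc →
    ∀ (c₀ : K), c₀ ∈ A → ∀ (S : Finset K) (b : F), IntOver A t b →
      ∃ W₀ : (A)[X], ∀ ρ ∈ S, ∀ P ∈ Dsc, Ev P t (c₀ + ρ) → Ev P b (aeval ρ W₀)

end Fermat.Agent.FF19.NG

end
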