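import Fermat.Agent.FF19.NG.Interface

/-!
# FF19 / NG-2 : `Stmt_Kill` (helper64)

A function `h ∈ BB`, a unit on the disc, vanishing at all the points `Q ≠ P₁` of the fibre of `t` through `P₁`.
-/

set_option autoImplicit false

noncomputable section

namespace Fermat.Agent.FF19.NG

open AlgebraicCurve Polynomial
open Fermat.Agent.RED (Ev IntOver GaussChart)
open Fermat.Agent.RED

variable {K F : Type} [Field K] [Field F] [Algebra K F]

theorem Kill_unitOn_one (A : ValuationSubring K) (Dsc : Set (Place K F)) : UnitOn A Dsc (1 : F) :=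
  fun P _ => ⟨1, ev_one P, map_one _⟩

theorem Kill_unitOn_mul {A : ValuationSubring K} {Dsc : Set (Place K F)} {v v' : F}
    (h : UnitOn A Dsc v) (h' : UnitOn A Dsc v') : UnitOn A Dsc (v * v') := by
  intro P hP
  obtain ⟨c, hc, hc1⟩ := h P hP
  obtain ⟨c', hc', hc1'⟩ := h' P hP
  exact ⟨c * c', ev_mul hc hc', by rw [map_mul, hc1, hc1', one_mul]⟩

/-- one factor. -/
theorem Kill_one {A : ValuationSubring K} {W : ValuationSubring F} {t : F}
    {Dsc : Set (Place K F)} (hC : ChartAx A W t) (hD : DiscAx A t Dsc) {P₁ : Place K F}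
    (hP₁ : P₁ ∈ Dsc) {a₁ : K} (h₁ : Ev P₁ t a₁) {Q : Place K F} (hQ : Ev Q t a₁) (hne : Q ≠ P₁) :
    ∃ h, IntOver A t h ∧ UnitOn A Dsc h ∧ Ev Q h 0 := by
  have ha₁ : a₁ ∈ A := by
    obtain ⟨a, ha, hat⟩ := hD.fin P₁ hP₁
    rw [ev_unique h₁ hat]
    exact ha
  have hQD : Q ∉ Dsc := fun hQD => hne (hD.uniq P₁ hP₁ Q hQD a₁ h₁ hQ).symm
  obtain ⟨y, hy, c, c', hc, hc', hcc⟩ := hD.sep P₁ hP₁ Q hQD ⟨a₁, ha₁, hQ⟩
  have hc'A : c' ∈ A := by
    obtain ⟨c₂, hc₂, h2⟩ := hC.evint Q a₁ hQ ha₁ y hy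
    rw [ev_unique hc' h2]
    exact hc₂
  have hcA : c ∈ A := by
    obtain ⟨c₂, hc₂, h2⟩ := hC.evint P₁ a₁ h₁ ha₁ y hy
    rw [ev_unique hc h2]
    exact hc₂
  have hv1 : A.valuation (c - c') = 1 := by
    have hle : A.valuation (c - c') ≤ 1 :=
      (ValuationSubring.valuation_le_one_iff A _).2 (A.sub_mem hcA hc'A)
    have hnlt : ¬ A.valuation (c - c') < 1 := fun h =>
      hcc ((ValuationSubring.mem_nonunits_iff A).2 h)
    exact le_antisymm hle (not_lt.1 hnlt)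
  refine ⟨y - algebraMap K F c', hy.sub (intOver_const hc'A), ?_, ?_⟩
  · intro P hP
    obtain ⟨a, ha, hat⟩ := hD.fin P hP
    obtain ⟨cP, _, hcP⟩ := hC.evint P a hat ha y hy
    refine ⟨cP - c', ev_sub hcP (ev_const P c'), ?_⟩
    have hsm : A.valuation (cP - c) < 1 :=
      (ValuationSubring.mem_nonunits_iff A).1 (hD.cong P hP P₁ hP₁ y hy cP c hcP hc)
    have e : cP - c' = (cP - c) + (c - c') := by ring
    rw [e, Valuation.map_add_eq_of_lt_right _ (by rw [hv1]; exact hsm), hv1]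
  · have := ev_sub hc' (ev_const Q c')
    rwa [sub_self] at this

/-- the product. -/
theorem Kill_prod {A : ValuationSubring K} {W : ValuationSubring F} {t : F}
    {Dsc : Set (Place K F)} (hC : ChartAx A W t) (s : Finset (Place K F))
    (hs : ∀ Q ∈ s, (∃ a ∈ A, Ev Q t a) ∧ ∃ h, IntOver A t h ∧ UnitOn A Dsc h ∧ Ev Q h 0) :
    ∃ h, IntOver A t h ∧ UnitOn A Dsc h ∧ ∀ Q ∈ s, Ev Q h 0 := by
  classical
  induction s using Finset.induction_on with
  | empty => exact ⟨1, intOver_one, Kill_unitOn_one A Dsc, fun Q hQ => absurd hQ (by simp)⟩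
  | insert Q₀ s _ ih =>
    obtain ⟨h', hi', hu', hz'⟩ := ih (fun Q hQ => hs Q (Finset.mem_insert_of_mem hQ))
    obtain ⟨⟨a₀, ha₀, hat₀⟩, h₀, hi₀, hu₀, hz₀⟩ := hs Q₀ (Finset.mem_insert_self _ _)
    refine ⟨h₀ * h', hi₀.mul hi', Kill_unitOn_mul hu₀ hu', fun Q hQ => ?_⟩
    rcases Finset.mem_insert.1 hQ with rfl | hQs
    · obtain ⟨c, _, hc⟩ := hC.evint Q a₀ hat₀ ha₀ h' hi'
      have := ev_mul hz₀ hc
      rwa [zero_mul] at this
    · obtain ⟨⟨a, ha, hat⟩, -⟩ := hs Q hQ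
      obtain ⟨c, _, hc⟩ := hC.evint Q a hat ha h₀ hi₀
      have := ev_mul hc (hz' Q hQs)
      rwa [mul_zero] at this

theorem stmt_Kill : Stmt_Kill := by
  intro K F _ _ _ A W t Dsc hC hD P₁ hP₁ a₁ h₁
  classical
  have ha₁ : a₁ ∈ A := by
    obtain ⟨a, ha, hat⟩ := hD.fin P₁ hP₁
    rw [ev_unique h₁ hat]
    exact ha
  obtain ⟨h, hi, hu, hz⟩ := Kill_prod (Dsc := Dsc) hC ((hC.finFib a₁).toFinset.erase P₁) (by
    intro Q hQ
    have hne : Q ≠ P₁ := Finset.ne_of_mem_erase hQ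
    have hQt : Ev Q t a₁ := by
      have := Finset.mem_of_mem_erase hQ
      simpa using this
    exact ⟨⟨a₁, ha₁, hQt⟩, Kill_one hC hD hP₁ h₁ hQt hne⟩)
  refine ⟨h, hi, hu, fun Q hQt hne => hz Q ?_⟩
  rw [Finset.mem_erase]
  exact ⟨hne, by simpa using hQt⟩

end Fermat.Agent.FF19.NG

end
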