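import Fermat.Agent.FF19.NG.Interface

/-!
# FF19 / NG-4 : (N1), `(f - f(P₁)) / (t - a₁) ∈ RY`  (helper99)
-/

set_option autoImplicit false

namespace Fermat.Agent.FF19.NG

open AlgebraicCurve Polynomial
open Fermat.Agent.RED

theorem stmt_N1 (h1 : Stmt_RYEv) (h2 : Stmt_Kill) (h3 : Stmt_Div) : Stmt_N1 := by
  intro K F _ _ _ A W t Dsc hC hD f hf P₁ hP₁ a₁ e ht he
  obtain ⟨hEv, _, hmul, _⟩ := h1 K F A W t Dsc hC hD
  obtain ⟨e', he'A, he'⟩ := hEv f hf P₁ hP₁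
  have hee : e' = e := ev_unique he' he
  subst hee
  obtain ⟨u, v, hu, hv, hvU, rfl⟩ := hf
  obtain ⟨h, hh, hhU, hkill⟩ := h2 K F A W t Dsc hC hD P₁ hP₁ a₁ ht
  obtain ⟨cv, hcv, hcv1⟩ := hvU P₁ hP₁
  have hcv0 : cv ≠ 0 := by
    rintro rfl
    simp at hcv1
  have hv0 : v ≠ 0 := EV_ne_zero hcv hcv0
  obtain ⟨ch, hch, hch1⟩ := hhU P₁ hP₁
  have hch0 : ch ≠ 0 := by
    rintro rfl
    simp at hch1
  have hh0 : h ≠ 0 := EV_ne_zero hch hch0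
  have hu' : IntOver A t (u - algebraMap K F e' * v) := hu.sub ((intOver_const he'A).mul hv)
  have hu'0 : Ev P₁ (u - algebraMap K F e' * v) 0 := by
    have h4 : Ev P₁ ((u / v) * v) (e' * cv) := ev_mul he hcv
    rw [div_mul_cancel₀ _ hv0] at h4
    have h5 := ev_sub h4 (ev_mul (ev_const P₁ e') hcv)
    simpa using h5
  have hdiv := h3 K F A W t Dsc hC hD P₁ hP₁ a₁ ht _ h hu' hh hu'0 hkill
  refine ⟨_, v * h, hdiv, hv.mul hh, hmul v h hvU hhU, ?_⟩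
  have ht0 : t - algebraMap K F a₁ ≠ 0 := by
    intro h0
    have h6 := hD.unr P₁ hP₁ a₁ ht P₁ ht
    rw [h0] at h6
    simp at h6
  field_simp

end Fermat.Agent.FF19.NG
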