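/-
TEAM FF19 -> S19, block NG, NG-5 + NG-6 (task 1816, helper4): Newton interpolation on a residue disc.
-/
import Fermat.Agent.FF19.NG.Interface

set_option autoImplicit false

noncomputable section

namespace Fermat.Agent.FF19.NG

open AlgebraicCurve Polynomial
open Fermat.Agent.RED (Ev IntOver GaussChart ev_unique ev_const ev_add ev_sub ev_mul EV_ne_zero)

/-- **NG-5** -/
theorem stmt_Newton (h1 : Stmt_RYEv) (h4 : Stmt_N1) : Stmt_Newton := by
  intro K F _ _ _ A W t Dsc hC hD S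
  classical
  induction S using Finset.induction_on with
  | empty => intro f _; exact ⟨0, fun a ha => absurd ha (Finset.notMem_empty a)⟩
  | insert a₁ S' ha₁ ih =>
    intro f hf
    by_cases hP : ∃ P₁ ∈ Dsc, Ev P₁ t a₁
    · obtain ⟨P₁, hP₁, hPt⟩ := hP
      obtain ⟨e, heA, he⟩ := (h1 K F A W t Dsc hC hD).1 f hf P₁ hP₁
      have hf₁ := h4 K F A W t Dsc hC hD f hf P₁ hP₁ a₁ e hPt he
      obtain ⟨W₁, hW₁⟩ := ih _ hf₁
      obtain ⟨a', ha'A, ha'⟩ := hD.fin P₁ hP₁
      have haa' : a' = a₁ := ev_unique ha' hPt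
      subst haa'
      refine ⟨C ⟨e, heA⟩ + (X - C ⟨a', ha'A⟩) * W₁, fun a ha P hP hPa => ?_⟩
      have hval : aeval a (C (⟨e, heA⟩ : A) + (X - C (⟨a', ha'A⟩ : A)) * W₁) =
          e + (a - a') * aeval a W₁ := by
        rw [map_add, map_mul, map_sub, aeval_C, aeval_C, aeval_X]
        rfl
      rw [hval]
      by_cases haa : a = a'
      · subst haa
        have hPP : P = P₁ := hD.uniq P hP P₁ hP₁ a hPa hPt
        subst hPP
        simpa using he
      · have haS : a ∈ S' := (Finset.mem_insert.1 ha).resolve_left haa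
        have h2 := hW₁ a haS P hP hPa
        have ht0 : t - algebraMap K F a' ≠ 0 :=
          EV_ne_zero (ev_sub hPa (ev_const P a')) (sub_ne_zero.2 haa)
        have hfe : f = algebraMap K F e + (t - algebraMap K F a') *
            ((f - algebraMap K F e) / (t - algebraMap K F a')) := by
          rw [mul_div_cancel₀ _ ht0]
          ring
        rw [hfe]
        exact ev_add (ev_const P e) (ev_mul (ev_sub hPa (ev_const P a')) h2)
    · obtain ⟨W₁, hW₁⟩ := ih f hf
      refine ⟨W₁, fun a ha P hP' hPa => ?_⟩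
      rcases Finset.mem_insert.1 ha with rfl | ha
      · exact absurd ⟨P, hP', hPa⟩ hP
      · exact hW₁ a ha P hP' hPa

/-- **NG-6** -/
theorem stmt_NewtonShift (h1 : Stmt_RYEv) (h5 : Stmt_Newton) : Stmt_NewtonShift := by
  intro K F _ _ _ A W t Dsc hC hD c₀ hc₀ S b hb
  classical
  obtain ⟨W₀, hW₀⟩ := h5 K F A W t Dsc hC hD (S.image (c₀ + ·)) b
    ((h1 K F A W t Dsc hC hD).2.1 b hb)
  refine ⟨W₀.comp (X + C ⟨c₀, hc₀⟩), fun ρ hρ P hP hPt => ?_⟩
  have h := hW₀ (c₀ + ρ) (Finset.mem_image_of_mem _ hρ) P hP hPt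
  have e : aeval ρ (W₀.comp (X + C (⟨c₀, hc₀⟩ : A))) = aeval (c₀ + ρ) W₀ := by
    rw [aeval_comp, map_add, aeval_X, aeval_C, add_comm]
    rfl
  rwa [e]

end Fermat.Agent.FF19.NG

end
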