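import Fermat.Agent.FF19.NG.Interface

/-!
# FF19 / NG-1 : values of `RY` on the disc
-/

set_option autoImplicit false

noncomputable section

namespace Fermat.Agent.FF19.NG

open AlgebraicCurve Polynomial
open Fermat.Agent.RED (Ev IntOver GaussChart)

/-- **NG-1**. -/
theorem stmt_RYEv : Stmt_RYEv := by
  intro K F _ _ _ A W t Dsc hC hD
  have hone : UnitOn A Dsc (1 : F) := fun P _ => ⟨1, Fermat.Agent.RED.ev_one P, map_one _⟩
  refine ⟨?_, ?_, ?_, hone⟩
  · rintro f ⟨u, v, hu, hv, hvU, rfl⟩ P hP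
    obtain ⟨a, ha, hta⟩ := hD.fin P hP
    obtain ⟨c, hc, hPc⟩ := hC.evint P a hta ha u hu
    obtain ⟨c', hPc', hval⟩ := hvU P hP
    have hc'0 : c' ≠ 0 := by
      rintro rfl
      rw [map_zero] at hval
      exact zero_ne_one hval
    refine ⟨c / c', ?_, Fermat.Agent.RED.ev_div hPc hPc' hc'0⟩
    rw [← ValuationSubring.valuation_le_one_iff, map_div₀, hval, div_one,
      ValuationSubring.valuation_le_one_iff]
    exact hc
  · intro b hb
    exact ⟨b, 1, hb, Fermat.Agent.RED.intOver_one, hone, (div_one b).symm⟩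
  · intro v v' hv hv' P hP
    obtain ⟨c, hc, hcv⟩ := hv P hP
    obtain ⟨c', hc', hcv'⟩ := hv' P hP
    exact ⟨c * c', Fermat.Agent.RED.ev_mul hc hc', by rw [map_mul, hcv, hcv', one_mul]⟩

end Fermat.Agent.FF19.NG

end
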